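import Mathlib
import Fermat.Prelude.Def_FormalHecke_Eigensystem

set_option autoImplicit false

namespace Fermat.Agent.S49

variable {R : Type*} [CommRing R]

/-- An eigensystem is multiplicative on coprime arguments. -/
theorem IsEigensystem.mul_of_coprime {e a : ℕ → R} (h : FormalHecke.IsEigensystem e a) :
    ∀ m n : ℕ, m.Coprime n → a (m * n) = a m * a n := by
  obtain ⟨h1, hrec⟩ := h
  intro m
  induction m using Nat.strong_induction_on with
  | _ m ih =>
    intro n hmn
    rcases Nat.eq_zero_or_pos m with rfl | hmpos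
    · have hn : n = 1 := by simpa using hmn
      subst hn
      simp [h1]
    rcases Nat.eq_or_lt_of_le (Nat.succ_le_of_lt hmpos) with hm1 | hm1
    · have : m = 1 := hm1.symm
      subst this
      simp [h1]
    · -- m > 1
      obtain ⟨ℓ, hℓ, m', rfl⟩ := Nat.exists_prime_and_dvd (n := m) (by omega)
      have hm'pos : 0 < m' := Nat.pos_of_mul_pos_left hmpos |> fun h => by
        rcases Nat.eq_zero_or_pos m' with h0 | h0
        · subst h0; simp at hmpos
        · exact h0
      have hm'lt : m' < ℓ * m' := by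
        have := hℓ.two_le
        nlinarith
      have hcop' : m'.Coprime n := Nat.Coprime.coprime_mul_left hmn
      have hcopℓ : ℓ.Coprime n := Nat.Coprime.coprime_mul_right hmn
      have hℓn : ¬ ℓ ∣ n := by
        intro hd
        have := Nat.Coprime.eq_one_of_dvd hcopℓ hd
        exact hℓ.one_lt.ne' this
      have e1 := hrec ℓ hℓ (m' * n)
      have e2 := hrec ℓ hℓ m'
      have ih1 := ih m' hm'lt n hcop'
      by_cases hd : ℓ ∣ m'
      · have hd' : ℓ ∣ m' * n := Dvd.dvd.mul_right hd n
        rw [if_pos hd'] at e1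
        rw [if_pos hd] at e2
        have hdiv : m' * n / ℓ = (m' / ℓ) * n := Nat.div_mul_right_comm hd n |>.symm ▸ rfl
        have hlt2 : m' / ℓ < ℓ * m' := lt_of_le_of_lt (Nat.div_le_self _ _) hm'lt
        have hcop2 : (m' / ℓ).Coprime n :=
          Nat.Coprime.coprime_dvd_left (Nat.div_dvd_of_dvd hd) hcop'
        have ih2 := ih (m' / ℓ) hlt2 n hcop2
        rw [hdiv, ih2, ih1] at e1
        rw [mul_assoc]
        linear_combination e1 - a n * e2
      · have hd' : ¬ ℓ ∣ m' * n := by
          intro hh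
          rcases (Nat.Prime.dvd_mul hℓ).1 hh with h | h
          · exact hd h
          · exact hℓn h
        rw [if_neg hd'] at e1
        rw [if_neg hd] at e2
        rw [ih1] at e1
        rw [mul_assoc]
        linear_combination e1 - a n * e2

/-- Prime power recursion of an eigensystem. -/
theorem IsEigensystem.prime_pow {e a : ℕ → R} (h : FormalHecke.IsEigensystem e a)
    (ℓ r : ℕ) (hℓ : ℓ.Prime) :
    a (ℓ ^ (r + 2)) = a ℓ * a (ℓ ^ (r + 1)) - e ℓ * a (ℓ ^ r) := by
  obtain ⟨_, hrec⟩ := h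
  have e1 := hrec ℓ hℓ (ℓ ^ (r + 1))
  have hd : ℓ ∣ ℓ ^ (r + 1) := dvd_pow_self ℓ (Nat.succ_ne_zero r)
  rw [if_pos hd] at e1
  have hdiv : ℓ ^ (r + 1) / ℓ = ℓ ^ r := by
    rw [pow_succ, Nat.mul_div_cancel _ hℓ.pos]
  rw [hdiv] at e1
  have hpow : ℓ * ℓ ^ (r + 1) = ℓ ^ (r + 2) := by ring
  rw [hpow] at e1
  linear_combination e1

theorem IsEigensystem.isRecursive {e a : ℕ → R} (h : FormalHecke.IsEigensystem e a) :
    FormalHecke.IsRecursive e a :=
  ⟨h.1, IsEigensystem.mul_of_coprime h, fun ℓ r hℓ => IsEigensystem.prime_pow h ℓ r hℓ⟩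

end Fermat.Agent.S49
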