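import Mathlib
import Fermat.Agent.S49.QC
import Fermat.Agent.S49.Formal

set_option autoImplicit false

namespace Fermat.Agent.S49

open CongruenceSubgroup ModularFormClass UpperHalfPlane

variable {N : ℕ}

theorem qc_eq_of_heckeT_eq (f : CuspForm (Gamma0 N) 2) (h1 : qCoeff f 1 = 1)
    {ℓ : ℕ} (hℓ : ℓ.Prime) (hℓN : ¬ ℓ ∣ N) {c : ℂ}
    (h : CuspForm.heckeTLin 2 hℓ hℓN f = c • f) : qCoeff f ℓ = c := by
  have h2 := qc_heckeT hℓ hℓN f 1
  rw [h, qc_smul, h1, if_neg (by simpa using hℓ.one_lt.ne'), one_mul, add_zero, mul_one] at h2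
  exact h2.symm

theorem qc_eq_of_heckeU_eq [NeZero N] (f : CuspForm (Gamma0 N) 2) (h1 : qCoeff f 1 = 1)
    {ℓ : ℕ} (hℓ : ℓ.Prime) (hℓN : ℓ ∣ N) {c : ℂ}
    (h : CuspForm.heckeULin 2 hℓN f = c • f) : qCoeff f ℓ = c := by
  have h2 := qc_heckeU hℓ.ne_zero hℓN f 1
  rw [h, qc_smul, h1, one_mul, mul_one] at h2
  exact h2.symm

theorem isEigensystem_of_eigen [NeZero N] (f : CuspForm (Gamma0 N) 2) (h1 : qCoeff f 1 = 1)
    (hT : ∀ (ℓ : ℕ) (hℓ : ℓ.Prime) (hℓN : ¬ ℓ ∣ N), ∃ c : ℂ, CuspForm.heckeTLin 2 hℓ hℓN f = c • f)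
    (hU : ∀ (q : ℕ) (_ : q.Prime) (hqN : q ∣ N), ∃ c : ℂ, CuspForm.heckeULin 2 hqN f = c • f) :
    FormalHecke.IsEigensystem (fun ℓ => if ℓ ∣ N then (0 : ℂ) else (ℓ : ℂ)) (qCoeff f) := by
  refine ⟨h1, fun ℓ hℓ n => ?_⟩
  by_cases hℓN : ℓ ∣ N
  · obtain ⟨c, hc⟩ := hU ℓ hℓ hℓN
    have hcℓ := qc_eq_of_heckeU_eq f h1 hℓ hℓN hc
    have h2 := qc_heckeU hℓ.ne_zero hℓN f n
    rw [hc, qc_smul, ← hcℓ] at h2
    simp only [if_pos hℓN, zero_mul, add_zero]
    rw [mul_comm ℓ n]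
    exact h2.symm
  · obtain ⟨c, hc⟩ := hT ℓ hℓ hℓN
    have hcℓ := qc_eq_of_heckeT_eq f h1 hℓ hℓN hc
    have h2 := qc_heckeT hℓ hℓN f n
    rw [hc, qc_smul, ← hcℓ] at h2
    simp only [if_neg hℓN]
    rw [mul_comm ℓ n, h2]
    split_ifs <;> norm_num

theorem isNormalizedEigenform_of_eigen [NeZero N] (f : CuspForm (Gamma0 N) 2)
    (h1 : qCoeff f 1 = 1)
    (hT : ∀ (ℓ : ℕ) (hℓ : ℓ.Prime) (hℓN : ¬ ℓ ∣ N), ∃ c : ℂ, CuspForm.heckeTLin 2 hℓ hℓN f = c • f)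
    (hU : ∀ (q : ℕ) (_ : q.Prime) (hqN : q ∣ N), ∃ c : ℂ, CuspForm.heckeULin 2 hqN f = c • f) :
    f.IsNormalizedEigenform := by
  obtain ⟨_, hmul, hpow⟩ := IsEigensystem.isRecursive (isEigensystem_of_eigen f h1 hT hU)
  refine ⟨h1, hmul, fun p r hp hpN => ?_, fun p r hp hpN => ?_⟩
  · have := hpow p r hp
    simpa only [if_neg hpN] using this
  · have := hpow p r hp
    simpa only [if_pos hpN, zero_mul, sub_zero] using this

/-- Non-degeneracy of the pairing `(t, g) ↦ a₁(t g)`. -/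
theorem eq_zero_of_forall_qc_one [NeZero N] (g : CuspForm (Gamma0 N) 2)
    (h : ∀ t ∈ CuspForm.heckeAlgebra N 2 ∅, qCoeff (t g) 1 = 0) : g = 0 := by
  apply qc_ext
  intro n
  induction n using Nat.strong_induction_on generalizing g with
  | _ n ih =>
    rcases Nat.eq_zero_or_pos n with rfl | hnpos
    · exact qc_at_zero g
    rcases Nat.eq_or_lt_of_le (Nat.succ_le_of_lt hnpos) with hn1 | hn1
    · have : n = 1 := hn1.symm
      subst this
      exact h 1 (one_mem _)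
    · obtain ⟨ℓ, hℓ, m, rfl⟩ := Nat.exists_prime_and_dvd (n := n) (by omega)
      have hmpos : 0 < m := by
        rcases Nat.eq_zero_or_pos m with h0 | h0
        · subst h0; simp at hnpos
        · exact h0
      have hmlt : m < ℓ * m := by
        have := hℓ.two_le
        nlinarith
      by_cases hℓN : ℓ ∣ N
      · have h2 := qc_heckeU hℓ.ne_zero hℓN g m
        have h3 : qCoeff (CuspForm.heckeULin 2 hℓN g) m = 0 := by
          apply ih m hmlt
          intro t ht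
          exact h (t * CuspForm.heckeULin 2 hℓN)
            (mul_mem ht (CuspForm.heckeULin_mem_heckeAlgebra hℓ hℓN (Set.notMem_empty _)))
        rw [mul_comm ℓ m, ← h2, h3]
      · have h2 := qc_heckeT hℓ hℓN g m
        have h3 : qCoeff (CuspForm.heckeTLin 2 hℓ hℓN g) m = 0 := by
          apply ih m hmlt
          intro t ht
          exact h (t * CuspForm.heckeTLin 2 hℓ hℓN)
            (mul_mem ht (CuspForm.heckeTLin_mem_heckeAlgebra hℓ hℓN (Set.notMem_empty _)))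
        have h4 : qCoeff g (m / ℓ) = 0 :=
          ih (m / ℓ) (lt_of_le_of_lt (Nat.div_le_self _ _) hmlt) g h
        rw [h3, h4] at h2
        rw [mul_comm ℓ m]
        simpa using h2.symm

end Fermat.Agent.S49
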