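import Mathlib
import Fermat.Agent.S49.QC
import Fermat.Agent.S49.Eigen
import Fermat.Agent.S49.Pairing
import Fermat.Prelude.Def_CuspForm_IntegralLattice
import Fermat.Prelude.Thm_CuspForm_intLattice_fg
import Fermat.Prelude.Thm_CuspForm_mem_intLattice_of_mem_heckeAlgebra

set_option autoImplicit false

namespace Fermat.Agent.S49

open CongruenceSubgroup ModularFormClass UpperHalfPlane

variable {N : ℕ} {k : ℤ}

theorem mem_intLattice_iff (f : CuspForm (Gamma0 N) k) :
    f ∈ CuspForm.intLattice N k ↔ ∀ n : ℕ, ∃ m : ℤ, qCoeff f n = (m : ℂ) := by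
  constructor
  · intro hf
    unfold CuspForm.intLattice at hf
    induction hf using Submodule.span_induction with
    | mem x hx => exact hx
    | zero =>
      intro n
      refine ⟨0, ?_⟩
      have := (qcLin N k n).map_zero
      simpa using this
    | add x y _ _ hx hy =>
      intro n
      obtain ⟨a, ha⟩ := hx n
      obtain ⟨b, hb⟩ := hy n
      exact ⟨a + b, by rw [qc_add, ha, hb]; push_cast; rfl⟩
    | smul c x _ hx =>
      intro n
      obtain ⟨a, ha⟩ := hx n
      refine ⟨c * a, ?_⟩
      have h1 : c • x = (c : ℂ) • x := (Int.cast_smul_eq_zsmul ℂ c x).symm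
      rw [h1, qc_smul, ha]
      push_cast
      rfl
  · intro hf
    exact Submodule.subset_span hf

theorem mem_qIntegralSet_iff (f : CuspForm (Gamma0 N) 2) :
    f ∈ CuspForm.qIntegralSet N ↔ ∀ n : ℕ, ∃ m : ℤ, qCoeff f n = (m : ℂ) := by
  unfold CuspForm.qIntegralSet
  simp only [Set.mem_ofPred_eq, Subring.mem_bot]
  exact forall_congr' fun n => exists_congr fun m => eq_comm

theorem qIntegralSet_eq : CuspForm.qIntegralSet N = (CuspForm.intLattice N 2 : Set _) := by
  ext f
  rw [mem_qIntegralSet_iff, SetLike.mem_coe, mem_intLattice_iff]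

theorem finiteDimensional_of_hasIntegralBasis [NeZero N] (h : CuspForm.HasIntegralBasis N) :
    FiniteDimensional ℂ (CuspForm (Gamma0 N) 2) := by
  obtain ⟨F, hF⟩ := CuspForm.intLattice_fg N 2
  refine ⟨⟨F, ?_⟩⟩
  rw [eq_top_iff, ← h, qIntegralSet_eq, Submodule.span_le, ← hF]
  intro x hx
  exact Submodule.span_subset_span ℤ ℂ _ hx

/-- The Hecke algebra is finite over `ℤ` and every ring homomorphism from it to `ℂ` is the
system of eigenvalues of a normalised eigenvector. -/
theorem hecke_main [NeZero N] (h : CuspForm.HasIntegralBasis N) :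
    Module.Finite ℤ (CuspForm.heckeAlgebra N 2 ∅) ∧
      ∀ lam : CuspForm.heckeAlgebra N 2 ∅ →+* ℂ, ∃ f : CuspForm (Gamma0 N) 2,
        qCoeff f 1 = 1 ∧ ∀ t : CuspForm.heckeAlgebra N 2 ∅,
          (t : Module.End ℂ (CuspForm (Gamma0 N) 2)) f = lam t • f := by
  have hfd := finiteDimensional_of_hasIntegralBasis h
  have := pairing_main (S := CuspForm (Gamma0 N) 2) (T := CuspForm.heckeAlgebra N 2 ∅)
    (CuspForm.heckeAlgebra N 2 ∅).val.toRingHom (qcLin N 2 1) (CuspForm.intLattice N 2 : Set _)
    (by rw [← qIntegralSet_eq]; exact h)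
    (fun t f hf => (mem_intLattice_iff _).1
      (CuspForm.mem_intLattice_of_mem_heckeAlgebra one_le_two t.2 hf) 1)
    (fun g hg => eq_zero_of_forall_qc_one g fun t ht => hg ⟨t, ht⟩)
    Subtype.val_injective
  exact this

end Fermat.Agent.S49
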