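import Mathlib

set_option autoImplicit false

namespace Fermat.Agent.S49

/-- Deligne–Serre lifting, commutative algebra part: a maximal ideal of a torsion-free integral
`ℤ`-algebra is the pull-back of a maximal ideal of `ℤ̄` along a ring hom to `ℤ̄ ⊆ ℂ`. -/
theorem exists_lift_of_isMaximal {T : Type*} [CommRing T] [Algebra.IsIntegral ℤ T]
    [IsAddTorsionFree T] (𝔪 : Ideal T) [h𝔪 : 𝔪.IsMaximal] :
    ∃ (lam : T →+* integralClosure ℤ ℂ) (𝔪' : Ideal (integralClosure ℤ ℂ)),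
      𝔪'.IsMaximal ∧ 𝔪'.comap lam = 𝔪 := by
  obtain ⟨𝔭, h𝔭min, h𝔭le⟩ := Ideal.exists_minimalPrimes_le (bot_le : (⊥ : Ideal T) ≤ 𝔪)
  have h𝔭prime : 𝔭.IsPrime := h𝔭min.1.1
  -- nonzero integers are not in `𝔭`
  have hint : ∀ n : ℤ, (n : T) ∈ 𝔭 → n = 0 := by
    intro n hn
    by_contra hne
    have hnzd : (n : T) ∈ nonZeroDivisors T := by
      rw [mem_nonZeroDivisors_iff_right]
      intro x hx
      have : n • x = 0 := by rw [zsmul_eq_mul, mul_comm]; exact hx
      exact (smul_eq_zero_iff_right hne).1 this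
    exact Set.disjoint_left.mp (Ideal.disjoint_nonZeroDivisors_of_mem_minimalPrimes h𝔭min) hn hnzd
  have hdom : IsDomain (T ⧸ 𝔭) := Ideal.Quotient.isDomain 𝔭
  have hintg : Algebra.IsIntegral ℤ (T ⧸ 𝔭) := inferInstance
  have hinj : Function.Injective (algebraMap ℤ (T ⧸ 𝔭)) := by
    rw [injective_iff_map_eq_zero]
    intro n hn
    apply hint n
    rw [← Ideal.Quotient.eq_zero_iff_mem]
    simpa using hn
  have htf : Module.IsTorsionFree ℤ (T ⧸ 𝔭) := by
    have : FaithfulSMul ℤ (T ⧸ 𝔭) := (faithfulSMul_iff_algebraMap_injective ℤ (T ⧸ 𝔭)).2 hinj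
    infer_instance
  let g : (T ⧸ 𝔭) →ₐ[ℤ] ℂ := IsAlgClosed.lift
  have hginj : Function.Injective g := by
    rw [injective_iff_map_eq_zero]
    have hker : RingHom.ker (g : (T ⧸ 𝔭) →+* ℂ) = ⊥ := by
      apply Ideal.eq_bot_of_comap_eq_bot (R := ℤ)
      rw [eq_bot_iff]
      intro n hn
      rw [Ideal.mem_comap, RingHom.mem_ker] at hn
      simpa using hn
    intro x hx
    have : x ∈ RingHom.ker (g : (T ⧸ 𝔭) →+* ℂ) := by
      rw [RingHom.mem_ker]; exact hx
    rw [hker] at this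
    simpa using this
  let lam0 : T →+* ℂ := (g : (T ⧸ 𝔭) →+* ℂ).comp (Ideal.Quotient.mk 𝔭)
  have hlam0 : ∀ t, lam0 t ∈ (integralClosure ℤ ℂ).toSubring := by
    intro t
    have ht : IsIntegral ℤ t := Algebra.IsIntegral.isIntegral t
    exact ht.map (lam0.toIntAlgHom)
  let lam : T →+* integralClosure ℤ ℂ := lam0.codRestrict (integralClosure ℤ ℂ).toSubring hlam0
  have hlamker : RingHom.ker lam ≤ 𝔪 := by
    intro t ht
    apply h𝔭le
    rw [RingHom.mem_ker] at ht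
    have h0 : lam0 t = 0 := congrArg Subtype.val ht
    have h1 : g (Ideal.Quotient.mk 𝔭 t) = 0 := h0
    have h2 := (injective_iff_map_eq_zero g).1 hginj _ h1
    exact Ideal.Quotient.eq_zero_iff_mem.1 h2
  let _ : Algebra T (integralClosure ℤ ℂ) := lam.toAlgebra
  have hTint : Algebra.IsIntegral T (integralClosure ℤ ℂ) := by
    have : IsScalarTower ℤ T (integralClosure ℤ ℂ) := IsScalarTower.of_algebraMap_eq' (Subsingleton.elim _ _)
    exact Algebra.IsIntegral.tower_top (R := ℤ)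
  obtain ⟨Q, hQprime, hQ⟩ :=
    Ideal.exists_ideal_over_prime_of_isIntegral_of_isDomain (S := integralClosure ℤ ℂ) 𝔪 hlamker
  refine ⟨lam, Q, ?_, hQ⟩
  exact Ideal.isMaximal_of_isIntegral_of_isMaximal_comap (R := T) Q (hQ ▸ h𝔪)

end Fermat.Agent.S49
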